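import Fermat.Agent.GRHBasicInequality.Kernel
import Fermat.Agent.EulerKroneckerFamilies.Ihara
import Fermat.Agent.TsfasmanVladut.Finite

/-!
# The complex weights and rates, and their differences along `s + j`

`weightRe s q = re (log q / (q ^ s - 1))` and the rates of the infinite places at a complex `s`.
Their differences along `s + j` are bounded by the real ones and tend to `0`.
-/

set_option autoImplicit false
set_option linter.style.haveILetI false

noncomputable section

open Filter Topology Finset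
open FA.TsfasmanVladut FA.EulerKroneckerFamilies FA.GRHBasicInequality
open scoped Real

namespace FA.FamilyZeroDensity

/-- `re (log q / (q ^ s - 1))`. -/
def weightRe (s : ℂ) (q : ℕ) : ℝ := ((Real.log q : ℂ) / ((q : ℂ) ^ s - 1)).re

/-- The rate of a real place at `s`. -/
def realRateAt (s : ℂ) : ℝ := (Real.log π - (Complex.digamma (s / 2)).re) / 2

/-- The rate of a complex place at `s`. -/
def complexRateAt (s : ℂ) : ℝ := Real.log (2 * π) - (Complex.digamma s).re

theorem realRateAt_ofReal (σ : ℝ) : realRateAt (σ : ℂ) = realRate σ := rfl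

theorem complexRateAt_ofReal (σ : ℝ) : complexRateAt (σ : ℂ) = complexRate σ := rfl

theorem weightRe_small {q : ℕ} (hq : q < 2) (s : ℂ) : weightRe s q = 0 := by
  interval_cases q <;> simp [weightRe]

theorem norm_natCast_cpow_gt {s : ℂ} (hs : 0 < s.re) {q : ℕ} (hq : 2 ≤ q) :
    ‖(q : ℂ) ^ s‖ = (q : ℝ) ^ s.re ∧ 1 < (q : ℝ) ^ s.re :=
  ⟨Complex.norm_natCast_cpow_of_pos (by omega) s, Real.one_lt_rpow (Nat.one_lt_cast.2 hq) hs⟩

theorem natCast_cpow_sub_ne {s : ℂ} (hs : 0 < s.re) {q : ℕ} (hq : 2 ≤ q) :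
    (q : ℂ) ^ s - 1 ≠ 0 := fun h => by
  obtain ⟨h1, h2⟩ := norm_natCast_cpow_gt hs hq
  rw [sub_eq_zero.1 h, norm_one] at h1
  linarith

/-- **The complex weight is at most the real one.** -/
theorem abs_weightRe_le {s : ℂ} (hs : 0 < s.re) (q : ℕ) :
    |weightRe s q| ≤ placeWeight s.re q := by
  rcases Nat.lt_or_ge q 2 with hq | hq
  · rw [weightRe_small hq, abs_zero]
    exact placeWeight_nonneg hs.le q
  obtain ⟨h1, h2⟩ := norm_natCast_cpow_gt hs hq
  refine (Complex.abs_re_le_norm _).trans ?_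
  rw [norm_div, Complex.norm_real, Real.norm_of_nonneg (Real.log_natCast_nonneg q), placeWeight]
  refine div_le_div_of_nonneg_left (Real.log_natCast_nonneg q) (sub_pos.2 h2) ?_
  have := norm_sub_norm_le ((q : ℂ) ^ s) 1
  rw [norm_one, h1] at this
  exact this

theorem weightRe_ofReal (σ : ℝ) (q : ℕ) : weightRe (σ : ℂ) q = placeWeight σ q := by
  rw [weightRe, placeWeight, ← Complex.ofReal_natCast, ← Complex.ofReal_cpow (Nat.cast_nonneg q),
    ← Complex.ofReal_one, ← Complex.ofReal_sub, ← Complex.ofReal_div, Complex.ofReal_re]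

theorem placeWeight_anti {σ τ : ℝ} (hσ : 0 < σ) (h : σ ≤ τ) (q : ℕ) :
    placeWeight τ q ≤ placeWeight σ q := by
  rcases Nat.lt_or_ge q 2 with hq | hq
  · interval_cases q <;> simp [placeWeight]
  have h1 : (1 : ℝ) < q := Nat.one_lt_cast.2 hq
  exact div_le_div_of_nonneg_left (Real.log_natCast_nonneg q)
    (sub_pos.2 (Real.one_lt_rpow h1 hσ))
    (sub_le_sub_right (Real.rpow_le_rpow_of_exponent_le h1.le h) 1)

theorem summable_placeWeight {σ : ℝ} (hσ : 1 < σ) : Summable (placeWeight σ) := by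
  obtain ⟨δ, hδ⟩ : ∃ δ, δ = (σ - 1) / 2 := ⟨_, rfl⟩
  have hδ0 : 0 < δ := by linarith
  have hs : Summable fun q : ℕ => 2 / δ * (q : ℝ) ^ (δ - σ) :=
    (Real.summable_nat_rpow.2 (by linarith)).mul_left _
  refine hs.of_nonneg_of_le (fun q => placeWeight_nonneg (by linarith) q) fun q => ?_
  rcases Nat.lt_or_ge q 2 with hq | hq
  · have h0 : placeWeight σ q = 0 := by interval_cases q <;> simp [placeWeight]
    rw [h0]
    positivity
  have h2 : (2 : ℝ) ≤ q := by exact_mod_cast hq
  have hp : (0 : ℝ) < (q : ℝ) ^ σ := Real.rpow_pos_of_pos (by linarith) σ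
  have hq2 : 2 ≤ (q : ℝ) ^ σ := h2.trans (Real.self_le_rpow_of_one_le (by linarith) hσ.le)
  rw [placeWeight]
  refine (div_le_div₀ (div_nonneg (Real.rpow_nonneg (by linarith) _) hδ0.le)
    (Real.log_le_rpow_div (by linarith) hδ0) (half_pos hp) (by linarith)).trans (le_of_eq ?_)
  rw [Real.rpow_sub (by linarith)]
  field_simp

theorem weightRe_hasSum {s : ℂ} (hs : 0 < s.re) {q : ℕ} (hq : 2 ≤ q) :
    HasSum (fun m : ℕ => Real.log q * ((((q : ℂ) ^ (-s)) ^ (m + 1)).re)) (weightRe s q) := by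
  obtain ⟨h1, h2⟩ := norm_natCast_cpow_gt hs hq
  obtain ⟨p, hp⟩ : ∃ p, p = (q : ℂ) ^ (-s) := ⟨_, rfl⟩
  have hn : ‖p‖ < 1 := by
    rw [hp, Complex.cpow_neg, norm_inv, h1]
    exact inv_lt_one_of_one_lt₀ h2
  have h := Complex.hasSum_re
    (((hasSum_geometric_of_norm_lt_one hn).mul_left p).mul_left (Real.log q : ℂ))
  have e : (Real.log q : ℂ) * (p * (1 - p)⁻¹) = (Real.log q : ℂ) / ((q : ℂ) ^ s - 1) := by
    have h0 : (q : ℂ) ^ s ≠ 0 := norm_pos_iff.1 (h1 ▸ (by linarith))
    have h3 := natCast_cpow_sub_ne hs hq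
    rw [hp, Complex.cpow_neg]
    field_simp
  rw [e] at h
  rw [← hp]
  exact h.congr_fun fun m => by rw [Complex.re_ofReal_mul, pow_succ']

theorem altSum_pow_complex (k : ℕ) (y : ℂ) : altSum k (fun j => y ^ j) = (1 - y) ^ k := by
  induction k with
  | zero => simp [altSum]
  | succ k ih =>
    rw [altSum_succ, show (fun j => y ^ (j + 1)) = fun j => y * y ^ j by funext j; ring,
      altSum_mul_left, ih]
    ring

/-- The differences of the weight along `s + j`, as a series. -/
theorem hasSum_altSum_weightRe {s : ℂ} (hs : 0 < s.re) (k : ℕ) {q : ℕ} (hq : 2 ≤ q) :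
    HasSum (fun m : ℕ => Real.log q *
      (((q : ℂ) ^ (-s)) ^ (m + 1) * ((((1 - ((q : ℝ)⁻¹) ^ (m + 1)) ^ k : ℝ) : ℂ))).re)
      (altSum k fun j : ℕ => weightRe (s + j) q) := by
  have hq0 : (q : ℂ) ≠ 0 := Nat.cast_ne_zero.2 (by omega)
  have h : HasSum (fun m : ℕ => altSum k fun j : ℕ =>
      Real.log q * ((((q : ℂ) ^ (-(s + j))) ^ (m + 1)).re))
      (altSum k fun j : ℕ => weightRe (s + j) q) :=
    hasSum_sum fun j _ => (weightRe_hasSum (by simp; linarith [(Nat.cast_nonneg j : (0:ℝ) ≤ j)])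
      hq).mul_left _
  refine h.congr_fun fun m => ?_
  rw [altSum_mul_left]
  congr 1
  rw [Complex.re_mul_ofReal]
  have e : (fun j : ℕ => (((q : ℂ) ^ (-(s + j))) ^ (m + 1)).re) = fun j : ℕ =>
      (((q : ℂ) ^ (-s)) ^ (m + 1)).re * ((((q : ℝ)⁻¹) ^ (m + 1)) ^ j) := funext fun j => by
    rw [neg_add, Complex.cpow_add _ _ hq0, Complex.cpow_neg _ (j : ℂ), Complex.cpow_natCast,
      mul_pow, show ((((q : ℂ) ^ j)⁻¹) ^ (m + 1)) = (((((q : ℝ)⁻¹) ^ (m + 1)) ^ j : ℝ) : ℂ) by
        push_cast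
        rw [← inv_pow, ← pow_mul, ← pow_mul, mul_comm],
      Complex.re_mul_ofReal]
  rw [e, altSum_mul_left, altSum_pow]

theorem abs_altSum_weightRe_le {s : ℂ} (hs : 0 < s.re) (k : ℕ) (q : ℕ) :
    |altSum k fun j : ℕ => weightRe (s + j) q| ≤ placeWeight s.re q := by
  rcases Nat.lt_or_ge q 2 with hq | hq
  · have h0 : (altSum k fun j : ℕ => weightRe (s + j) q) = 0 := by
      simp [altSum, weightRe_small hq]
    rw [h0, abs_zero]
    exact placeWeight_nonneg hs.le q
  obtain ⟨h1, -⟩ := norm_natCast_cpow_gt hs hq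
  have hw := weightRe_hasSum (s := (s.re : ℂ)) (by simpa using hs) hq
  rw [weightRe_ofReal] at hw
  rw [← (hasSum_altSum_weightRe hs k hq).tsum_eq, ← Real.norm_eq_abs]
  refine tsum_of_norm_bounded hw fun m => ?_
  have hx : (q : ℝ)⁻¹ ≤ 1 := inv_le_one_of_one_le₀ (Nat.one_le_cast.2 (by omega))
  rw [norm_mul, Real.norm_of_nonneg (Real.log_natCast_nonneg q)]
  refine mul_le_mul_of_nonneg_left ?_ (Real.log_natCast_nonneg q)
  rw [Real.norm_eq_abs]
  refine (Complex.abs_re_le_norm _).trans ?_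
  rw [norm_mul, norm_pow, Complex.norm_real, Complex.cpow_neg, norm_inv, h1,
    ← Complex.ofReal_natCast, ← Complex.ofReal_neg, ← Complex.ofReal_cpow (Nat.cast_nonneg q),
    ← Complex.ofReal_pow, Complex.ofReal_re, Real.rpow_neg (Nat.cast_nonneg q)]
  refine mul_le_of_le_one_right (by positivity) ?_
  rw [Real.norm_of_nonneg (pow_nonneg (sub_nonneg.2 (pow_le_one₀ (by positivity) hx)) _)]
  exact pow_le_one₀ (sub_nonneg.2 (pow_le_one₀ (by positivity) hx)) (sub_le_self _ (by positivity))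

/-- **The differences of a weight tend to `0`.** -/
theorem tendsto_altSum_weightRe {s : ℂ} (hs : 0 < s.re) (q : ℕ) :
    Tendsto (fun k => altSum k fun j : ℕ => weightRe (s + j) q) atTop (𝓝 0) := by
  rcases Nat.lt_or_ge q 2 with hq | hq
  · simp [altSum, weightRe_small hq]
  obtain ⟨h1, -⟩ := norm_natCast_cpow_gt hs hq
  have hx : (q : ℝ)⁻¹ < 1 := inv_lt_one_of_one_lt₀ (Nat.one_lt_cast.2 hq)
  have hw := weightRe_hasSum (s := (s.re : ℂ)) (by simpa using hs) hq
  have h := tendsto_tsum_of_dominated_convergence (𝓕 := (atTop : Filter ℕ))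
    (g := fun _ : ℕ => (0 : ℝ))
    (f := fun k m : ℕ => Real.log q *
      (((q : ℂ) ^ (-s)) ^ (m + 1) * ((((1 - ((q : ℝ)⁻¹) ^ (m + 1)) ^ k : ℝ) : ℂ))).re)
    hw.summable (fun m => ?_) (Eventually.of_forall fun k m => ?_)
  · rw [tsum_zero] at h
    exact h.congr fun k => (hasSum_altSum_weightRe hs k hq).tsum_eq
  · simp only [Complex.re_mul_ofReal]
    have := ((tendsto_pow_atTop_nhds_zero_of_lt_one
      (sub_nonneg.2 (pow_le_one₀ (by positivity) hx.le))
      (sub_lt_self (1 : ℝ) (show 0 < ((q : ℝ)⁻¹) ^ (m + 1) by positivity))).const_mul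
        ((((q : ℂ) ^ (-s)) ^ (m + 1)).re)).const_mul (Real.log q)
    simpa only [mul_zero] using this
  · rw [norm_mul, Real.norm_of_nonneg (Real.log_natCast_nonneg q)]
    refine mul_le_mul_of_nonneg_left ?_ (Real.log_natCast_nonneg q)
    rw [Real.norm_eq_abs]
    refine (Complex.abs_re_le_norm _).trans ?_
    rw [norm_mul, norm_pow, Complex.norm_real, Complex.cpow_neg, norm_inv, h1,
      ← Complex.ofReal_natCast, ← Complex.ofReal_neg, ← Complex.ofReal_cpow (Nat.cast_nonneg q),
      ← Complex.ofReal_pow, Complex.ofReal_re, Real.rpow_neg (Nat.cast_nonneg q)]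
    refine mul_le_of_le_one_right (by positivity) ?_
    rw [Real.norm_of_nonneg (pow_nonneg (sub_nonneg.2 (pow_le_one₀ (by positivity) hx.le)) _)]
    exact pow_le_one₀ (sub_nonneg.2 (pow_le_one₀ (by positivity) hx.le))
      (sub_le_self _ (by positivity))

/-- `ψ z` as a limit. -/
theorem tendsto_digamma_complex {z : ℂ} (hz : 0 < z.re) :
    Tendsto (fun N : ℕ => (Real.log N : ℂ) - ∑ k ∈ range N, (z + k)⁻¹) atTop
      (𝓝 (Complex.digamma z)) := by
  have h := (FA.ExplicitFormula.hasSum_digamma hz).tendsto_sum_nat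
  rw [← logDeriv_apply, ← Complex.digamma_def] at h
  have h' := h.sub_const z⁻¹
  rw [add_sub_cancel_right] at h'
  refine (tendsto_add_atTop_iff_nat 1).1 (h'.congr fun N => ?_)
  induction N with
  | zero => simp
  | succ N ih =>
    rw [sum_range_succ, add_sub_right_comm, ih, sum_range_succ _ (N + 1)]
    have h1 : (0 : ℝ) < (N : ℝ) + 1 := by positivity
    rw [show (1 : ℝ) + 1 / ((N : ℝ) + 1) = ((N : ℝ) + 1 + 1) / ((N : ℝ) + 1) by field_simp,
      Real.log_div (by positivity) h1.ne']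
    push_cast
    ring

theorem norm_altSum_inv_le (k : ℕ) {c : ℂ} (hc : 0 < c.re) :
    ‖altSum k fun j : ℕ => (c + j)⁻¹‖ ≤ fdRatio c.re k := by
  have hi : ∀ i : ℕ, c.re + i ≤ ‖c + i‖ := fun i => le_trans (by simp) (Complex.re_le_norm _)
  have hne : ∀ i : ℕ, c + i ≠ 0 := fun i =>
    norm_pos_iff.1 (lt_of_lt_of_le (add_pos_of_pos_of_nonneg hc (Nat.cast_nonneg i)) (hi i))
  rw [altSum_inv_add k hne, norm_div, Complex.norm_natCast, norm_prod, fdRatio]
  exact div_le_div_of_nonneg_left (Nat.cast_nonneg _)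
    (Finset.prod_pos fun i _ => add_pos_of_pos_of_nonneg hc (Nat.cast_nonneg i))
    (Finset.prod_le_prod (fun i _ => (add_pos_of_pos_of_nonneg hc (Nat.cast_nonneg i)).le)
      fun i _ => hi i)

/-- **The differences of `ψ` along `w + j t`.** -/
theorem norm_altSum_digamma_le (k : ℕ) {w : ℂ} (hw : 0 < w.re) {t : ℝ} (ht : 0 < t) (ht1 : t ≤ 1) :
    ‖altSum (k + 1) fun j : ℕ => Complex.digamma (w + j * t)‖ ≤ t⁻¹ * fdRatio (w.re / t) k := by
  have hre : ∀ j : ℕ, 0 < (w + j * t : ℂ).re := fun j => by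
    simp
    positivity
  have hlim : Tendsto (fun N : ℕ => altSum (k + 1) fun j : ℕ =>
      (Real.log N : ℂ) - ∑ m ∈ Finset.range N, (w + j * t + m)⁻¹) atTop
      (𝓝 (altSum (k + 1) fun j : ℕ => Complex.digamma (w + j * t))) :=
    tendsto_finsetSum _ fun j _ => (tendsto_digamma_complex (hre j)).const_mul _
  refine le_of_tendsto' hlim.norm fun N => ?_
  rw [altSum_sub, altSum_const (Nat.succ_pos k), zero_sub, norm_neg,
    show (altSum (k + 1) fun j : ℕ => ∑ m ∈ Finset.range N, (w + j * t + m)⁻¹) =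
      ∑ m ∈ Finset.range N, altSum (k + 1) fun j : ℕ => (w + j * t + m)⁻¹ by
      simp only [altSum, Finset.mul_sum]
      rw [Finset.sum_comm]]
  refine (norm_sum_le _ _).trans ?_
  have hc : 0 < w.re / t := div_pos hw ht
  have htc : (t : ℂ) ≠ 0 := Complex.ofReal_ne_zero.2 ht.ne'
  refine (Finset.sum_le_sum (g := fun m : ℕ =>
    t⁻¹ * (fdRatio (w.re / t + m) k - fdRatio (w.re / t + (m + 1 : ℕ)) k)) fun m _ => ?_).trans ?_
  · have hcm : 0 < w.re / t + (m : ℝ) := by positivity
    have hre' : ((w + m) / (t : ℂ)).re = (w.re + m) / t := by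
      rw [Complex.div_ofReal_re, Complex.add_re, Complex.natCast_re]
    rw [show (fun j : ℕ => (w + j * t + (m : ℂ))⁻¹) =
      fun j : ℕ => (t : ℂ)⁻¹ * ((w + m) / (t : ℂ) + j)⁻¹ by
      funext j
      rw [← mul_inv]
      congr 1
      field_simp
      ring, altSum_mul_left, norm_mul, norm_inv, Complex.norm_real, Real.norm_of_nonneg ht.le]
    refine mul_le_mul_of_nonneg_left ((norm_altSum_inv_le _ (by rw [hre']; positivity)).trans ?_)
      (inv_nonneg.2 ht.le)
    rw [hre']
    refine (fdRatio_anti hcm ?_ _).trans_eq ?_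
    · rw [add_div]
      exact add_le_add_right (by
        rw [le_div_iff₀ ht]
        exact mul_le_of_le_one_right (Nat.cast_nonneg m) ht1) _
    rw [fdRatio_succ hcm]
    push_cast
    rw [add_assoc]
  · rw [← Finset.mul_sum, Finset.sum_range_sub' (fun m : ℕ => fdRatio (w.re / t + m) k),
      Nat.cast_zero, add_zero]
    exact mul_le_mul_of_nonneg_left (sub_le_self _ (fdRatio_pos (by positivity) k).le)
      (inv_nonneg.2 ht.le)

theorem abs_altSum_rateAt_le (k : ℕ) {s : ℂ} (hs : 0 < s.re) :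
    |altSum (k + 1) fun j : ℕ => realRateAt (s + j)| ≤ fdRatio s.re k ∧
      |altSum (k + 1) fun j : ℕ => complexRateAt (s + j)| ≤ fdRatio s.re k := by
  have hre : ∀ (f : ℕ → ℂ) (n : ℕ), altSum n (fun j => (f j).re) = (altSum n f).re := fun f n => by
    simp only [altSum, Complex.re_sum]
    refine Finset.sum_congr rfl fun j _ => ?_
    rw [show ((-1) ^ j * (n.choose j : ℂ)) = (((-1) ^ j * (n.choose j : ℝ) : ℝ) : ℂ) by
      push_cast; rfl, Complex.re_ofReal_mul]
  constructor
  · have h := norm_altSum_digamma_le k (w := s / 2) (t := 1 / 2) (by simpa using hs) (by norm_num)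
      (by norm_num)
    rw [show (s / 2).re / (1 / 2) = s.re by rw [Complex.div_ofNat_re]; ring] at h
    rw [show (fun j : ℕ => realRateAt (s + j)) = fun j : ℕ => Real.log π / 2 +
        (-1 / 2) * (Complex.digamma (s / 2 + j * ((1 / 2 : ℝ) : ℂ))).re by
      funext j
      rw [realRateAt, show (s + j) / 2 = s / 2 + j * ((1 / 2 : ℝ) : ℂ) by push_cast; ring]
      ring, altSum_add, altSum_const (Nat.succ_pos k), zero_add, altSum_mul_left, hre, abs_mul]
    have h2 := (Complex.abs_re_le_norm _).trans h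
    rw [show |(-1 / 2 : ℝ)| = 1 / 2 by norm_num]
    linarith
  · have h := norm_altSum_digamma_le k (w := s) (t := 1) hs one_pos le_rfl
    rw [div_one, inv_one, one_mul] at h
    rw [show (fun j : ℕ => complexRateAt (s + j)) = fun j : ℕ => Real.log (2 * π) +
        (-1) * (Complex.digamma (s + j * ((1 : ℝ) : ℂ))).re by
      funext j
      rw [complexRateAt, Complex.ofReal_one, mul_one]
      ring, altSum_add, altSum_const (Nat.succ_pos k), zero_add, altSum_mul_left, hre, abs_mul,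
      abs_neg, abs_one, one_mul]
    exact (Complex.abs_re_le_norm _).trans h

/-- **`re ψ` is strictly least on the real axis.** -/
theorem re_digamma_lt {c t : ℝ} (hc : 0 < c) (ht : t ≠ 0) :
    (Complex.digamma (c : ℂ)).re < (Complex.digamma ((c : ℂ) + t * Complex.I)).re := by
  have hzre : ((c : ℂ) + t * Complex.I).re = c := by simp
  have h1 := Complex.hasSum_re
    (FA.ExplicitFormula.hasSum_digamma (z := (c : ℂ) + t * Complex.I) (by rw [hzre]; exact hc))
  have h2 := Complex.hasSum_re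
    (FA.ExplicitFormula.hasSum_digamma (z := (c : ℂ)) (by simpa using hc))
  rw [← logDeriv_apply, ← Complex.digamma_def, Complex.add_re] at h1 h2
  have key : ∀ u : ℝ, 0 < u →
      (((u : ℂ) + t * Complex.I)⁻¹).re < u⁻¹ := fun u hu => by
    rw [Complex.inv_re, Complex.normSq_apply]
    simp only [Complex.add_re, Complex.add_im, Complex.mul_re, Complex.mul_im, Complex.ofReal_re,
      Complex.ofReal_im, Complex.I_re, Complex.I_im, mul_zero, mul_one, sub_self, add_zero,
      zero_add]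
    rw [inv_eq_one_div u, div_lt_div_iff₀ (by nlinarith [mul_self_nonneg t] : (0 : ℝ) < _) hu,
      one_mul]
    linarith [mul_self_pos.2 ht]
  have hle := hasSum_le (fun k => ?_) h2 h1
  · have := key c hc
    rw [Complex.inv_re (c : ℂ)] at hle
    simp only [Complex.ofReal_re, Complex.normSq_ofReal] at hle
    rw [div_mul_cancel_left₀ hc.ne'] at hle
    linarith
  · simp only [Complex.sub_re]
    refine sub_le_sub_left ?_ _
    rw [show (c : ℂ) + t * Complex.I + ((k : ℂ) + 1) = ((c + (k + 1) : ℝ) : ℂ) + t * Complex.I by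
      push_cast; ring, show (c : ℂ) + ((k : ℂ) + 1) = ((c + (k + 1) : ℝ) : ℂ) by push_cast; ring,
      ← Complex.ofReal_inv, Complex.ofReal_re]
    exact (key _ (by positivity)).le

end FA.FamilyZeroDensity

end
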