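import Fermat.Agent.DedekindZeroDistribution.Counting
import Fermat.Agent.FamilyZeroDensity.Series

/-!
# One field: Stark's sum at a complex point and its differences

`re ξ'/ξ` at `re s > 1` through the places of each norm, and its differences along `σ + i x + j` on
the Riemann hypothesis.
-/

set_option autoImplicit false
set_option linter.style.haveILetI false

noncomputable section

universe u

open NumberField InfinitePlace Module Filter Topology Set IsDedekindDomain Ideal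
open FA.HeckeBS FA.TsfasmanVladut FA.EulerKroneckerFamilies FA.GRHBasicInequality
open FA.DedekindZeroCount FA.DedekindHadamard
open scoped Real Classical

namespace FA.FamilyZeroDensity

variable (K : Type u) [Field K] [NumberField K]

theorem hasSum_weightRe_places {s : ℂ} (hs : 1 < s.re) :
    HasSum (fun v : HeightOneSpectrum (𝓞 K) => weightRe s (absNorm v.asIdeal))
      (-(deriv (dedekindZeta K) s / dedekindZeta K s).re) := by
  have hone : FA.Hecke.IsRayChar (⊤ : Ideal (𝓞 K)) (1 : Ideal (𝓞 K) →* ℂ) :=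
    FA.Hecke.IsRayChar.one
  have h := Complex.hasSum_re (hone.hasSum_negLogDeriv hs)
  have he : FA.Hecke.heckeL (1 : Ideal (𝓞 K) →* ℂ) =ᶠ[𝓝 s] dedekindZeta K := by
    filter_upwards [(isOpen_lt continuous_const Complex.continuous_re).mem_nhds hs] with y hy
    exact FA.Hecke.heckeL_one hy
  rw [he.deriv_eq, he.eq_of_nhds, neg_div, Complex.neg_re] at h
  refine h.congr_fun fun v => ?_
  have hq : 1 < absNorm v.asIdeal := NumberField.HeightOneSpectrum.one_lt_absNorm v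
  have h3 := natCast_cpow_sub_ne (show 0 < s.re by linarith) (q := absNorm v.asIdeal) hq
  have h0 : ((absNorm v.asIdeal : ℕ) : ℂ) ^ s ≠ 0 :=
    Complex.cpow_ne_zero_iff.2 (Or.inl (Nat.cast_ne_zero.2 (by omega)))
  rw [weightRe, FA.Hecke.fPow, MonoidHom.one_apply, one_mul, FA.PrimeIdeal.primePow,
    Complex.cpow_neg]
  congr 1
  field_simp

theorem hasSum_fiber {h : ℕ → ℝ} {a : ℝ}
    (hs : HasSum (fun v : HeightOneSpectrum (𝓞 K) => h (absNorm v.asIdeal)) a) :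
    HasSum (fun q : ℕ => (placeCount K q : ℝ) * h q) a := by
  refine (hs.tsum_fiberwise fun v : HeightOneSpectrum (𝓞 K) => absNorm v.asIdeal).congr_fun
    fun q => ?_
  have e : ∀ v : ↥((fun v : HeightOneSpectrum (𝓞 K) => absNorm v.asIdeal) ⁻¹' {q}),
      h (absNorm (v : HeightOneSpectrum (𝓞 K)).asIdeal) = h q := fun v => congrArg h v.2
  rw [tsum_congr e, tsum_const, nsmul_eq_mul]
  rfl

/-- `re ξ'/ξ`. -/
def fieldLog (s : ℂ) : ℝ := (xiLog K s).re

theorem fieldLog_formula {s : ℂ} (hs : 1 < s.re) :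
    fieldLog K s = logGenus K + (s⁻¹).re + ((s - 1)⁻¹).re -
      (nrRealPlaces K * realRateAt s + nrComplexPlaces K * complexRateAt s) -
      ∑' q : ℕ, (placeCount K q : ℝ) * weightRe s q := by
  rw [fieldLog, ← (stark_identity K hs).unique (hasSum_reTerm K (xi_ne_zero_right K hs.le)),
    (hasSum_fiber K (hasSum_weightRe_places K hs)).tsum_eq]
  have e3 : (archTerm K s).re =
      -(nrRealPlaces K * realRateAt s + nrComplexPlaces K * complexRateAt s) := by
    rw [archTerm, Complex.add_re, ← Complex.ofReal_natCast, Complex.re_ofReal_mul,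
      ← Complex.ofReal_natCast, Complex.re_ofReal_mul, Complex.div_ofNat_re, Complex.sub_re,
      Complex.sub_re, Complex.ofReal_re, Complex.ofReal_re, realRateAt, complexRateAt]
    ring
  rw [e3, show logGenus K = discLog K / 2 from rfl]
  ring

/-- `σ + x i`. -/
def pt (σ x : ℝ) : ℂ := (σ : ℂ) + x * Complex.I

@[simp] theorem pt_re (σ x : ℝ) : (pt σ x).re = σ := by simp [pt]

@[simp] theorem pt_im (σ x : ℝ) : (pt σ x).im = x := by simp [pt]

theorem pt_add_natCast (σ x : ℝ) (j : ℕ) : pt σ x + j = pt (σ + j) x := by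
  simp only [pt]
  push_cast
  ring

theorem xiFun_pt_ne (hRH : RHFor K) {σ : ℝ} (hσ : 1 / 2 < σ) (x : ℝ) :
    xiFun K (pt σ x) ≠ 0 := fun h0 => by
  have := re_eq_half_of_rh K hRH h0
  rw [pt_re] at this
  linarith

theorem reTerm_pt (hRH : RHFor K) {σ x : ℝ} {ρ : ℂ} :
    reTerm K (pt σ x) ρ = (xiMult K ρ : ℝ) *
      ((σ - 1 / 2) / ((σ - 1 / 2) ^ 2 + (x - ρ.im) ^ 2)) := by
  rcases eq_or_ne (xiMult K ρ) 0 with hm | hm
  · simp [reTerm, hm]
  have hρ := re_eq_half_of_rh K hRH ((xiMult_ne_zero_iff K).1 hm)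
  rw [reTerm, Complex.inv_re, Complex.normSq_apply]
  simp only [Complex.sub_re, Complex.sub_im, pt_re, pt_im, hρ]
  rw [sq, sq]

theorem fieldLog_nonneg (hRH : RHFor K) {σ : ℝ} (hσ : 1 / 2 < σ) (x : ℝ) :
    0 ≤ fieldLog K (pt σ x) := by
  refine (hasSum_reTerm K (xiFun_pt_ne K hRH hσ x)).nonneg fun ρ => ?_
  rw [reTerm_pt K hRH]
  have : 0 < σ - 1 / 2 := sub_pos.2 hσ
  positivity

theorem continuous_fieldLog (hRH : RHFor K) {σ : ℝ} (hσ : 1 / 2 < σ) :
    Continuous fun x : ℝ => fieldLog K (pt σ x) := by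
  have hd := differentiable_xiFun K
  have hp : Continuous fun x : ℝ => pt σ x := by unfold pt; fun_prop
  have hd' : Continuous (deriv (xiFun K)) :=
    (hd.contDiff (n := 1)).continuous_deriv le_rfl
  exact Complex.continuous_re.comp
    ((hd'.comp hp).div (hd.continuous.comp hp) fun x => xiFun_pt_ne K hRH hσ x)

/-- **Domination by the value at `2`.** -/
theorem fieldLog_le_two (hRH : RHFor K) {a : ℝ} (ha : 0 < a) {x X : ℝ} (hx : |x| ≤ X) :
    fieldLog K (pt (1 / 2 + a) x) ≤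
      a * (2 / 3) * ((9 / 4 + 2 * X ^ 2) / a ^ 2 + 2) * fieldLog K (pt 2 0) := by
  refine hasSum_le (fun ρ => ?_) (hasSum_reTerm K (xiFun_pt_ne K hRH (by linarith) x))
    ((hasSum_reTerm K (xiFun_pt_ne K hRH (by norm_num) 0)).mul_left _)
  rw [reTerm_pt K hRH, reTerm_pt K hRH, add_sub_cancel_left, mul_left_comm (a * (2 / 3) * _)]
  refine mul_le_mul_of_nonneg_left ?_ (Nat.cast_nonneg _)
  have hxx : x ^ 2 ≤ X ^ 2 := by
    rw [← sq_abs]
    exact pow_le_pow_left₀ (abs_nonneg x) hx 2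
  have hd : 0 < (2 - 1 / 2) ^ 2 + (0 - ρ.im) ^ 2 := by nlinarith [sq_nonneg ρ.im]
  have ha2 : 0 < a ^ 2 := by positivity
  rw [show a * (2 / 3) * ((9 / 4 + 2 * X ^ 2) / a ^ 2 + 2) *
      ((2 - 1 / 2) / ((2 - 1 / 2) ^ 2 + (0 - ρ.im) ^ 2)) =
      a * ((9 / 4 + 2 * X ^ 2) / a ^ 2 + 2) / ((2 - 1 / 2) ^ 2 + (0 - ρ.im) ^ 2) by ring,
    div_le_div_iff₀ (by positivity) hd, mul_assoc]
  refine mul_le_mul_of_nonneg_left ?_ ha.le
  have h1 : (2 - 1 / 2 : ℝ) ^ 2 + (0 - ρ.im) ^ 2 ≤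
      (9 / 4 + 2 * X ^ 2) + 2 * (x - ρ.im) ^ 2 := by nlinarith [sq_nonneg (x + (x - ρ.im))]
  refine h1.trans ?_
  have h2 : 9 / 4 + 2 * X ^ 2 ≤ (9 / 4 + 2 * X ^ 2) / a ^ 2 * (a ^ 2 + (x - ρ.im) ^ 2) := by
    rw [mul_add, div_mul_cancel₀ _ ha2.ne']
    exact le_add_of_nonneg_right (by positivity)
  nlinarith

/-- **The differences at `σ + i x`.** -/
theorem abs_altSum_fieldLog_le (hRH : RHFor K) {σ : ℝ} (hσ : 1 / 2 < σ) (hσ1 : σ ≤ 1) (x : ℝ)
    (k : ℕ) :
    |altSum (k + 1) fun j : ℕ => fieldLog K (pt (σ + j) x)| ≤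
      4 * fdRatio (σ - 1 / 2) (k + 1) * fieldLog K (pt 2 x) := by
  have hne : ∀ j : ℕ, 1 / 2 < σ + j := fun j => by linarith [(Nat.cast_nonneg j : (0 : ℝ) ≤ j)]
  have hs : HasSum (fun ρ => altSum (k + 1) fun j : ℕ => reTerm K (pt (σ + j) x) ρ)
      (altSum (k + 1) fun j : ℕ => fieldLog K (pt (σ + j) x)) :=
    hasSum_sum fun j _ => (hasSum_reTerm K (xiFun_pt_ne K hRH (hne j) x)).mul_left _
  have h2 : HasSum (fun ρ => 4 * fdRatio (σ - 1 / 2) (k + 1) * reTerm K (pt 2 x) ρ)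
      (4 * fdRatio (σ - 1 / 2) (k + 1) * fieldLog K (pt 2 x)) :=
    (hasSum_reTerm K (xiFun_pt_ne K hRH (by norm_num) x)).mul_left _
  have key : ∀ ρ, |altSum (k + 1) fun j : ℕ => reTerm K (pt (σ + j) x) ρ| ≤
      4 * fdRatio (σ - 1 / 2) (k + 1) * reTerm K (pt 2 x) ρ := fun ρ => by
    rcases eq_or_ne (xiMult K ρ) 0 with hm | hm
    · simp [altSum, reTerm, hm]
    have hρ := re_eq_half_of_rh K hRH ((xiMult_ne_zero_iff K).1 hm)
    rw [reTerm_pt K hRH (σ := 2)]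
    simp only [reTerm]
    rw [altSum_mul_left, abs_mul, Nat.abs_cast, mul_left_comm (4 * _)]
    refine mul_le_mul_of_nonneg_left ?_ (Nat.cast_nonneg _)
    obtain ⟨a, ha⟩ : ∃ a, a = σ - 1 / 2 := ⟨_, rfl⟩
    have ha0 : 0 < a := by linarith
    obtain ⟨c, hc⟩ : ∃ c : ℂ, c = pt σ x - ρ := ⟨_, rfl⟩
    have hcre : c.re = a := by rw [hc]; simp [hρ, ha]
    have hcim : c.im = x - ρ.im := by rw [hc]; simp
    have hi : ∀ i : ℕ, a + i ≤ ‖c + i‖ := fun i =>
      le_trans (by simp [hcre]) (Complex.re_le_norm _)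
    have hnz : ∀ i : ℕ, c + i ≠ 0 := fun i =>
      norm_pos_iff.1 (lt_of_lt_of_le (add_pos_of_pos_of_nonneg ha0 (Nat.cast_nonneg i)) (hi i))
    have e : altSum (k + 1) (fun j : ℕ => ((pt (σ + j) x - ρ)⁻¹).re) =
        (altSum (k + 1) (fun j : ℕ => (c + j)⁻¹)).re := by
      simp only [altSum, Complex.re_sum]
      refine Finset.sum_congr rfl fun j _ => ?_
      rw [show ((-1) ^ j * ((k + 1).choose j : ℂ)) =
          (((-1) ^ j * ((k + 1).choose j : ℝ) : ℝ) : ℂ) by push_cast; rfl, Complex.re_ofReal_mul,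
        show pt (σ + j) x - ρ = c + j by rw [hc, ← pt_add_natCast]; ring]
    rw [e, altSum_inv_add _ hnz, ← ha]
    refine (Complex.abs_re_le_norm _).trans ?_
    rw [norm_div, Complex.norm_natCast, norm_prod, fdRatio]
    have hsplit : ∀ f : ℕ → ℝ, ∏ i ∈ Finset.range (k + 1 + 1), f i =
        f 0 * f 1 * ∏ i ∈ Finset.range k, f (i + 2) := fun f => by
      rw [Finset.prod_range_succ', Finset.prod_range_succ']
      ring
    rw [hsplit fun i => ‖c + i‖, hsplit fun i : ℕ => a + i]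
    simp only [Nat.cast_zero, add_zero, Nat.cast_one]
    obtain ⟨B, hB⟩ : ∃ B, B = ∏ i ∈ Finset.range k, (a + ((i + 2 : ℕ) : ℝ)) := ⟨_, rfl⟩
    obtain ⟨Bc, hBc⟩ : ∃ Bc, Bc = ∏ i ∈ Finset.range k, ‖c + ((i + 2 : ℕ) : ℂ)‖ := ⟨_, rfl⟩
    have hBB : B ≤ Bc := hB ▸ hBc ▸
      Finset.prod_le_prod (fun i _ => (add_pos_of_pos_of_nonneg ha0 (Nat.cast_nonneg _)).le)
        fun i _ => hi (i + 2)
    have hB0 : 0 < B := hB ▸
      Finset.prod_pos fun i _ => add_pos_of_pos_of_nonneg ha0 (Nat.cast_nonneg _)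
    rw [← hB, ← hBc]
    obtain ⟨w, hw⟩ : ∃ w, w = (2 - 1 / 2 : ℝ) ^ 2 + (x - ρ.im) ^ 2 := ⟨_, rfl⟩
    have hw0 : 0 < w := by rw [hw]; nlinarith [sq_nonneg (x - ρ.im)]
    rw [← hw]
    have hsq : a * (a + 1) * w ≤ 6 * (‖c‖ * ‖c + 1‖) := by
      have e0 : ‖c‖ ^ 2 = a ^ 2 + (x - ρ.im) ^ 2 := by
        rw [Complex.sq_norm, Complex.normSq_apply, hcre, hcim]; ring
      have e1 : ‖c + 1‖ ^ 2 = (a + 1) ^ 2 + (x - ρ.im) ^ 2 := by
        rw [Complex.sq_norm, Complex.normSq_apply, Complex.add_re, Complex.add_im, hcre, hcim,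
          Complex.one_re, Complex.one_im]
        ring
      have h1 : a ≤ ‖c‖ := by simpa using hi 0
      have h2 : a + 1 ≤ ‖c + 1‖ := by simpa using hi 1
      have hle : ‖c‖ ≤ ‖c + 1‖ := by nlinarith [norm_nonneg c, norm_nonneg (c + 1)]
      have h3 := mul_le_mul h1 h2 (by linarith) (norm_nonneg c)
      have h4 := mul_le_mul_of_nonneg_left hle (norm_nonneg c)
      rw [hw]
      nlinarith [sq_nonneg (x - ρ.im), mul_le_mul_of_nonneg_right
        (show a * (a + 1) ≤ 3 by nlinarith) (sq_nonneg (x - ρ.im))]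
    rw [show 4 * (((k + 1).factorial : ℝ) / (a * (a + 1) * B)) * ((2 - 1 / 2) / w) =
        6 * ((k + 1).factorial : ℝ) / (a * (a + 1) * B * w) by field_simp; ring, div_le_div_iff₀ (by
      refine mul_pos (mul_pos (norm_pos_iff.2 (by simpa using hnz 0))
        (norm_pos_iff.2 (by simpa using hnz 1))) (hB0.trans_le hBB)) (by positivity)]
    have h1 := mul_le_mul hsq hBB hB0.le (by positivity)
    have h2 := mul_le_mul_of_nonneg_left h1 (Nat.cast_nonneg (α := ℝ) ((k + 1).factorial))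
    linarith
  rw [abs_le]
  exact ⟨hasSum_le (fun ρ => (abs_le.1 (key ρ)).1) h2.neg hs,
    hasSum_le (fun ρ => (abs_le.1 (key ρ)).2) hs h2⟩

end FA.FamilyZeroDensity

end
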