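import Fermat.Agent.FamilyZeroDensity.Limit

/-!
# The ordinates in an interval, for every family

Integrating `re ξ'/ξ` along `1/2 + a + i x` counts the ordinates in an interval up to `O (a)`; so
`#{γ ∈ [A, B]} / g → π⁻¹ ∫_A^B` of the limit function on the critical line.
-/

set_option autoImplicit false
set_option linter.style.haveILetI false

noncomputable section

universe u

open NumberField InfinitePlace Module Filter Topology Set MeasureTheory
open FA.TsfasmanVladut FA.DedekindHadamard FA.DedekindZeroDistribution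
open scoped Real Classical

namespace FA.FamilyZeroDensity

/-- The ordinates in `[A, B]`, with multiplicity. -/
def countIcc (K : Type u) [Field K] [NumberField K] (A B : ℝ) : ℝ :=
  intervalCount K ((A + B) / 2) ((B - A) / 2)

theorem abs_sub_mid_le_iff {A B t : ℝ} :
    |t - (A + B) / 2| ≤ (B - A) / 2 ↔ A ≤ t ∧ t ≤ B := by
  rw [abs_le]
  constructor <;> intro h <;> constructor <;> linarith

variable (K : Type u) [Field K] [NumberField K]

theorem countIcc_nonneg (A B : ℝ) : 0 ≤ countIcc K A B :=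
  tsum_nonneg fun ρ => by split_ifs <;> simp

theorem exists_zero_set (A B : ℝ) : ∃ T : Finset ℂ,
    (∀ ρ, xiMult K ρ ≠ 0 → A ≤ ρ.im → ρ.im ≤ B → ρ ∈ T) ∧
      (∀ ρ ∈ T, A ≤ ρ.im ∧ ρ.im ≤ B) ∧ countIcc K A B = ∑ ρ ∈ T, (xiMult K ρ : ℝ) := by
  obtain ⟨hf, hfd⟩ : ∃ hf, hf = finite_support_count K ((A + B) / 2) ((B - A) / 2) := ⟨_, rfl⟩
  have hmem : ∀ ρ, ρ ∈ hf.toFinset ↔
      (|ρ.im - (A + B) / 2| ≤ (B - A) / 2) ∧ xiMult K ρ ≠ 0 := fun ρ => by
    rw [Set.Finite.mem_toFinset, Function.mem_support, ne_eq, ite_eq_right_iff]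
    push Not
    rw [ne_eq, Nat.cast_eq_zero]
  refine ⟨hf.toFinset, fun ρ h1 h2 h3 => (hmem ρ).2 ⟨abs_sub_mid_le_iff.2 ⟨h2, h3⟩, h1⟩,
    fun ρ hρ => abs_sub_mid_le_iff.1 ((hmem ρ).1 hρ).1, ?_⟩
  rw [countIcc, intervalCount, tsum_eq_sum (s := hf.toFinset) fun ρ hρ => ?_]
  · exact Finset.sum_congr rfl fun ρ hρ => if_pos ((hmem ρ).1 hρ).1
  · by_contra hne
    exact hρ ((Set.Finite.mem_toFinset hf).2 (Function.mem_support.2 hne))

/-- `a / (a ^ 2 + (x - γ) ^ 2)`. -/
def cauchyKernel (a γ x : ℝ) : ℝ := a / (a ^ 2 + (x - γ) ^ 2)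

theorem continuous_cauchyKernel {a : ℝ} (ha : 0 < a) (γ : ℝ) : Continuous (cauchyKernel a γ) :=
  continuous_const.div (by fun_prop) fun x => (by positivity : (0 : ℝ) < a ^ 2 + (x - γ) ^ 2).ne'

theorem integral_cauchyKernel {a : ℝ} (ha : 0 < a) (γ A B : ℝ) :
    ∫ x in A..B, cauchyKernel a γ x =
      Real.arctan ((B - γ) / a) - Real.arctan ((A - γ) / a) := by
  simp only [cauchyKernel, div_eq_mul_inv a]
  rw [intervalIntegral.integral_const_mul,
    intervalIntegral.integral_comp_sub_right (fun y => (a ^ 2 + y ^ 2)⁻¹) γ,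
    integral_inv_sq_add_sq ha.ne', ← mul_assoc, mul_inv_cancel₀ ha.ne', one_mul]

theorem reTerm_eq_cauchy (hRH : RHFor K) {a x : ℝ} (ρ : ℂ) :
    reTerm K (pt (1 / 2 + a) x) ρ = (xiMult K ρ : ℝ) * cauchyKernel a ρ.im x := by
  rw [reTerm_pt K hRH, add_sub_cancel_left, cauchyKernel]

/-- **An interval below a larger integral.** -/
theorem arctan_mul_count_le (hRH : RHFor K) {a η A B : ℝ} (ha : 0 < a) (hη : 0 < η) (hAB : A ≤ B) :
    2 * Real.arctan (η / a) * countIcc K A B ≤
      ∫ x in (A - η)..(B + η), fieldLog K (pt (1 / 2 + a) x) := by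
  obtain ⟨T, -, hT, hc⟩ := exists_zero_set K A B
  have hint : ∀ ρ ∈ T, IntervalIntegrable (fun x => (xiMult K ρ : ℝ) * cauchyKernel a ρ.im x)
      volume (A - η) (B + η) := fun ρ _ =>
    ((continuous_cauchyKernel ha ρ.im).const_mul _).intervalIntegrable _ _
  have h1 : ∫ x in (A - η)..(B + η), ∑ ρ ∈ T, (xiMult K ρ : ℝ) * cauchyKernel a ρ.im x ≤
      ∫ x in (A - η)..(B + η), fieldLog K (pt (1 / 2 + a) x) := by
    refine intervalIntegral.integral_mono_on (by linarith)
      ((continuous_finsetSum T fun ρ _ => (continuous_cauchyKernel ha ρ.im).const_mul _)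
        |>.intervalIntegrable _ _)
      ((continuous_fieldLog K hRH (by linarith)).intervalIntegrable _ _) fun x _ => ?_
    simp only [← reTerm_eq_cauchy K hRH]
    refine sum_le_hasSum T (fun ρ _ => ?_) (hasSum_reTerm K (xiFun_pt_ne K hRH (by linarith) x))
    rw [reTerm_eq_cauchy K hRH, cauchyKernel]
    positivity
  refine le_trans ?_ h1
  rw [intervalIntegral.integral_finsetSum hint, hc, Finset.mul_sum]
  refine Finset.sum_le_sum fun ρ hρ => ?_
  rw [intervalIntegral.integral_const_mul, integral_cauchyKernel ha, mul_comm]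
  refine mul_le_mul_of_nonneg_left ?_ (Nat.cast_nonneg _)
  obtain ⟨h2, h3⟩ := hT ρ hρ
  have hu := Real.arctan_mono (show η / a ≤ (B + η - ρ.im) / a from
    div_le_div_of_nonneg_right (by linarith) ha.le)
  have hl := Real.arctan_mono (show (A - η - ρ.im) / a ≤ -(η / a) by
    rw [← neg_div]; exact div_le_div_of_nonneg_right (by linarith) ha.le)
  rw [Real.arctan_neg] at hl
  linarith

/-- **A smaller integral below an interval.** -/
theorem integral_le_count (hRH : RHFor K) {a η A B X : ℝ} (ha : 0 < a) (hη : 0 < η)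
    (hAB : A + η ≤ B - η) (hA : -X ≤ A) (hB : B ≤ X) :
    ∫ x in (A + η)..(B - η), fieldLog K (pt (1 / 2 + a) x) ≤ π * countIcc K A B +
      (B - η - (A + η)) * (a * (2 / 3) * ((9 / 4 + 2 * X ^ 2) / η ^ 2 + 2) *
        fieldLog K (pt 2 0)) := by
  obtain ⟨T, hT, hT', hc⟩ := exists_zero_set K A B
  obtain ⟨R, hR⟩ : ∃ R, R = a * (2 / 3) * ((9 / 4 + 2 * X ^ 2) / η ^ 2 + 2) := ⟨_, rfl⟩
  have hR0 : 0 ≤ R := hR ▸ by positivity
  rw [← hR]
  have hcont : Continuous fun x => ∑ ρ ∈ T, (xiMult K ρ : ℝ) * cauchyKernel a ρ.im x :=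
    continuous_finsetSum T fun ρ _ => (continuous_cauchyKernel ha ρ.im).const_mul _
  have h1 : ∫ x in (A + η)..(B - η), fieldLog K (pt (1 / 2 + a) x) ≤
      ∫ x in (A + η)..(B - η),
        ((∑ ρ ∈ T, (xiMult K ρ : ℝ) * cauchyKernel a ρ.im x) + R * fieldLog K (pt 2 0)) := by
    refine intervalIntegral.integral_mono_on hAB
      ((continuous_fieldLog K hRH (by linarith)).intervalIntegrable _ _)
      ((hcont.add continuous_const).intervalIntegrable _ _) fun x hx => ?_
    have hs1 : HasSum (fun ρ : ℂ => if ρ ∈ T then (xiMult K ρ : ℝ) * cauchyKernel a ρ.im x else 0)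
        (∑ ρ ∈ T, (xiMult K ρ : ℝ) * cauchyKernel a ρ.im x) := by
      convert hasSum_sum_of_ne_finset_zero (L := SummationFilter.unconditional ℂ) (s := T)
        (f := fun ρ : ℂ => if ρ ∈ T then (xiMult K ρ : ℝ) * cauchyKernel a ρ.im x else 0)
        (fun ρ hρ => if_neg hρ) using 1
      exact Finset.sum_congr rfl fun ρ hρ => (if_pos hρ).symm
    refine hasSum_le (fun ρ => ?_) (hasSum_reTerm K (xiFun_pt_ne K hRH (by linarith) x))
      (hs1.add ((hasSum_reTerm K (xiFun_pt_ne K hRH (by norm_num) 0)).mul_left R))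
    have hnn : 0 ≤ R * reTerm K (pt 2 0) ρ := by
      rw [reTerm_pt K hRH]
      exact mul_nonneg hR0
        (mul_nonneg (Nat.cast_nonneg _) (div_nonneg (by norm_num) (by positivity)))
    rw [reTerm_eq_cauchy K hRH]
    split_ifs with hρ
    · linarith
    rw [zero_add]
    rcases eq_or_ne (xiMult K ρ) 0 with hm | hm
    · rw [hm, Nat.cast_zero, zero_mul]
      exact hnn
    have hd : η ≤ |x - ρ.im| := by
      by_contra hlt
      push Not at hlt
      rw [abs_lt] at hlt
      exact hρ (hT ρ hm (by linarith [hx.1]) (by linarith [hx.2]))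
    rw [reTerm_pt K hRH, mul_left_comm R]
    refine mul_le_mul_of_nonneg_left ?_ (Nat.cast_nonneg _)
    have hd2 : η ^ 2 ≤ (x - ρ.im) ^ 2 := by
      rw [← sq_abs (x - ρ.im)]
      exact pow_le_pow_left₀ hη.le hd 2
    have hxx : x ^ 2 ≤ X ^ 2 := by nlinarith [hx.1, hx.2]
    obtain ⟨d, hdd⟩ : ∃ d, d = (x - ρ.im) ^ 2 := ⟨_, rfl⟩
    rw [cauchyKernel, ← hdd]
    rw [← hdd] at hd2
    have hw : 0 < (2 - 1 / 2 : ℝ) ^ 2 + (0 - ρ.im) ^ 2 := by nlinarith [sq_nonneg ρ.im]
    rw [hR, show a * (2 / 3) * ((9 / 4 + 2 * X ^ 2) / η ^ 2 + 2) *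
        ((2 - 1 / 2) / ((2 - 1 / 2) ^ 2 + (0 - ρ.im) ^ 2)) =
        a * ((9 / 4 + 2 * X ^ 2) / η ^ 2 + 2) / ((2 - 1 / 2) ^ 2 + (0 - ρ.im) ^ 2) by ring,
      div_le_div_iff₀ (by nlinarith : (0 : ℝ) < a ^ 2 + d) hw, mul_assoc]
    refine mul_le_mul_of_nonneg_left ?_ ha.le
    have h1 : (2 - 1 / 2 : ℝ) ^ 2 + (0 - ρ.im) ^ 2 ≤ (9 / 4 + 2 * X ^ 2) + 2 * d := by
      rw [hdd]
      nlinarith [sq_nonneg (x + (x - ρ.im))]
    refine h1.trans ?_
    have h2 : 9 / 4 + 2 * X ^ 2 ≤ (9 / 4 + 2 * X ^ 2) / η ^ 2 * d := by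
      rw [div_mul_eq_mul_div, le_div_iff₀ (by positivity)]
      exact mul_le_mul_of_nonneg_left hd2 (by positivity)
    have h3 : 0 ≤ (9 / 4 + 2 * X ^ 2) / η ^ 2 * a ^ 2 := by positivity
    linarith [sq_nonneg a]
  refine h1.trans ?_
  rw [intervalIntegral.integral_add (hcont.intervalIntegrable _ _) intervalIntegrable_const,
    intervalIntegral.integral_const, smul_eq_mul,
    intervalIntegral.integral_finsetSum fun ρ _ =>
      ((continuous_cauchyKernel ha ρ.im).const_mul _).intervalIntegrable _ _, hc, Finset.mul_sum]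
  refine add_le_add (Finset.sum_le_sum fun ρ hρ => ?_) le_rfl
  rw [intervalIntegral.integral_const_mul, integral_cauchyKernel ha, mul_comm π]
  refine mul_le_mul_of_nonneg_left ?_ (Nat.cast_nonneg _)
  linarith [Real.arctan_lt_pi_div_two ((B - η - ρ.im) / a),
    Real.neg_pi_div_two_lt_arctan ((A + η - ρ.im) / a)]

variable {F : ℕ → Type u} [∀ i, Field (F i)] [∀ i, NumberField (F i)]
variable {φ : ℕ → ℝ} {φR φC : ℝ}

/-- **The density of the ordinates.** -/
def zeroDensity (φ : ℕ → ℝ) (φR φC : ℝ) (t : ℝ) : ℝ := limRe φ φR φC (pt (1 / 2) t)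

theorem continuous_limRe_shift (h : RatiosTend F φ φR φC) (hRH : ∀ i, RHFor (F i))
    (hg : Tendsto (fun i => logGenus (F i)) atTop atTop) :
    Continuous (Function.uncurry fun a x : ℝ => limRe φ φR φC (pt (1 / 2 + max a 0) x)) :=
  (continuousOn_limRe h hRH hg).comp_continuous (by unfold pt; fun_prop) fun p => by
    show 1 / 2 ≤ (pt _ _).re
    rw [pt_re]
    linarith [le_max_right p.1 (0 : ℝ)]

theorem continuous_zeroDensity (h : RatiosTend F φ φR φC) (hRH : ∀ i, RHFor (F i))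
    (hg : Tendsto (fun i => logGenus (F i)) atTop atTop) : Continuous (zeroDensity φ φR φC) :=
  (continuousOn_limRe h hRH hg).comp_continuous (by unfold pt; fun_prop) fun t => by
    show 1 / 2 ≤ (pt _ _).re
    rw [pt_re]

theorem tendsto_integral_fieldLog (h : RatiosTend F φ φR φC) (hRH : ∀ i, RHFor (F i))
    (hg : Tendsto (fun i => logGenus (F i)) atTop atTop) {a : ℝ} (ha : 0 < a) (A B : ℝ) :
    Tendsto (fun i => (∫ x in A..B, fieldLog (F i) (pt (1 / 2 + a) x)) / logGenus (F i)) atTop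
      (𝓝 (∫ x in A..B, limRe φ φR φC (pt (1 / 2 + a) x))) := by
  obtain ⟨X, hX⟩ : ∃ X, X = |A| + |B| := ⟨_, rfl⟩
  obtain ⟨W, hW⟩ : ∃ W, W = limRe φ φR φC (pt 2 0) + 1 := ⟨_, rfl⟩
  obtain ⟨R, hR⟩ : ∃ R, R = a * (2 / 3) * ((9 / 4 + 2 * X ^ 2) / a ^ 2 + 2) := ⟨_, rfl⟩
  have hR0 : 0 ≤ R := hR ▸ by positivity
  have h2 := (tendsto_fieldLog_right h hg (show 1 < (pt 2 0).re by simp)).eventually
    (eventually_le_nhds (show limRe φ φR φC (pt 2 0) < W by linarith))
  have e : ∀ i, (∫ x in A..B, fieldLog (F i) (pt (1 / 2 + a) x)) / logGenus (F i) =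
      ∫ x in A..B, fieldLog (F i) (pt (1 / 2 + a) x) / logGenus (F i) := fun i =>
    (intervalIntegral.integral_div _ _).symm
  simp only [e]
  refine intervalIntegral.tendsto_integral_filter_of_dominated_convergence (fun _ => R * W)
    (Eventually.of_forall fun i =>
      ((continuous_fieldLog (F i) (hRH i) (by linarith)).div_const _).aestronglyMeasurable)
    ?_ intervalIntegrable_const
    (Eventually.of_forall fun x _ => tendsto_fieldLog h hRH hg (by linarith) x)
  filter_upwards [h2, hg.eventually_gt_atTop 0] with i hi hg0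
  refine Eventually.of_forall fun x hx => ?_
  have hxX : |x| ≤ X := by
    rw [Set.mem_uIoc] at hx
    rw [hX, abs_le]
    rcases hx with hx | hx <;> constructor <;>
      linarith [abs_nonneg A, abs_nonneg B, neg_abs_le A, neg_abs_le B, le_abs_self A,
        le_abs_self B]
  rw [Real.norm_of_nonneg (div_nonneg (fieldLog_nonneg (F i) (hRH i) (by linarith) x) hg0.le)]
  refine (div_le_div_of_nonneg_right (fieldLog_le_two (F i) (hRH i) ha hxX) hg0.le).trans ?_
  rw [← hR, mul_div_assoc]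
  exact mul_le_mul_of_nonneg_left hi hR0

theorem tendsto_limRe_integral (h : RatiosTend F φ φR φC) (hRH : ∀ i, RHFor (F i))
    (hg : Tendsto (fun i => logGenus (F i)) atTop atTop) (A B : ℝ) :
    Tendsto (fun a : ℝ => ∫ x in A..B, limRe φ φR φC (pt (1 / 2 + a) x)) (𝓝[>] 0)
      (𝓝 (∫ x in A..B, zeroDensity φ φR φC x)) := by
  have hc := intervalIntegral.continuous_parametric_intervalIntegral_of_continuous'
    (μ := volume) (continuous_limRe_shift h hRH hg) A B
  have h0 := (hc.tendsto 0).mono_left (nhdsWithin_le_nhds (s := Ioi 0))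
  simp only [max_self, add_zero] at h0
  refine h0.congr' ?_
  filter_upwards [self_mem_nhdsWithin] with a ha
  rw [max_eq_left (le_of_lt (mem_Ioi.1 ha))]

/-- **The ordinates in an interval, for every family.** -/
theorem tendsto_countIcc (h : RatiosTend F φ φR φC) (hRH : ∀ i, RHFor (F i))
    (hg : Tendsto (fun i => logGenus (F i)) atTop atTop) {A B : ℝ} (hAB : A ≤ B) :
    Tendsto (fun i => countIcc (F i) A B / logGenus (F i)) atTop
      (𝓝 (π⁻¹ * ∫ x in A..B, zeroDensity φ φR φC x)) := by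
  have hπ : (0 : ℝ) < π := Real.pi_pos
  have hcd := continuous_zeroDensity h hRH hg
  have hii : ∀ u v : ℝ, IntervalIntegrable (zeroDensity φ φR φC) volume u v := fun u v =>
    hcd.intervalIntegrable u v
  obtain ⟨J, hJ⟩ : ∃ J : ℝ → ℝ → ℝ, J = fun u v => ∫ x in u..v, zeroDensity φ φR φC x := ⟨_, rfl⟩
  have hJc : ∀ c : ℝ, Tendsto (fun η => J (A + c * η) (B - c * η)) (𝓝[>] 0) (𝓝 (J A B)) :=
    fun c => by
    have hp := intervalIntegral.continuous_primitive hii 0
    have hcont : Continuous fun η : ℝ => (∫ x in (0 : ℝ)..(B - c * η), zeroDensity φ φR φC x) -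
        ∫ x in (0 : ℝ)..(A + c * η), zeroDensity φ φR φC x :=
      (hp.comp (by fun_prop)).sub (hp.comp (by fun_prop))
    have := (hcont.tendsto 0).mono_left (nhdsWithin_le_nhds (s := Ioi 0))
    simp only [mul_zero, sub_zero, add_zero] at this
    rw [hJ]
    simpa only [intervalIntegral.integral_interval_sub_left (hii 0 _) (hii 0 _)] using this
  refine tendsto_order.2 ⟨fun b hb => ?_, fun b hb => ?_⟩
  · rcases eq_or_lt_of_le hAB with rfl | hlt
    · filter_upwards [hg.eventually_gt_atTop 0] with i hg0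
      rw [intervalIntegral.integral_same, mul_zero] at hb
      exact hb.trans_le (div_nonneg (countIcc_nonneg _ _ _) hg0.le)
    have hb' : π * b < J A B := by
      rw [hJ]
      rwa [inv_mul_eq_div, lt_div_iff₀ hπ, mul_comm] at hb
    obtain ⟨η, hη, hη1, hη0⟩ := (((hJc 1).eventually (eventually_gt_nhds hb')).and
      (((eventually_le_nhds (half_pos (sub_pos.2 hlt))).filter_mono nhdsWithin_le_nhds).and
        eventually_mem_nhdsWithin)).exists
    have hη' : 0 < η := hη0
    simp only [one_mul] at hη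
    obtain ⟨X, hX⟩ : ∃ X, X = |A| + |B| := ⟨_, rfl⟩
    have hXA : -X ≤ A := by linarith [neg_abs_le A, abs_nonneg B]
    have hXB : B ≤ X := by linarith [le_abs_self B, abs_nonneg A]
    obtain ⟨Q, hQ⟩ : ∃ Q : ℝ → ℝ, Q = fun a => (B - η - (A + η)) * (a * (2 / 3) *
        ((9 / 4 + 2 * X ^ 2) / η ^ 2 + 2) * limRe φ φR φC (pt 2 0)) := ⟨_, rfl⟩
    have hQ0 : Tendsto Q (𝓝[>] 0) (𝓝 0) := by
      have : Continuous Q := by rw [hQ]; fun_prop
      simpa [hQ] using (this.tendsto 0).mono_left (nhdsWithin_le_nhds (s := Ioi 0))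
    have hIa := (tendsto_limRe_integral h hRH hg (A + η) (B - η)).sub hQ0
    rw [sub_zero] at hIa
    obtain ⟨a, ha, ha0⟩ := ((hIa.eventually (eventually_gt_nhds (show π * b <
      ∫ x in (A + η)..(B - η), zeroDensity φ φR φC x by rw [hJ] at hη; exact hη))).and
        eventually_mem_nhdsWithin).exists
    have ha' : 0 < a := ha0
    have hlim := (tendsto_integral_fieldLog h hRH hg ha' (A + η) (B - η)).sub
      (((tendsto_fieldLog_right h hg (show 1 < (pt 2 0).re by simp)).const_mul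
        (a * (2 / 3) * ((9 / 4 + 2 * X ^ 2) / η ^ 2 + 2))).const_mul (B - η - (A + η)))
    rw [hQ] at ha
    filter_upwards [hlim.eventually (eventually_gt_nhds ha), hg.eventually_gt_atTop 0]
      with i hi hg0
    have h1 := div_le_div_of_nonneg_right
      (integral_le_count (F i) (hRH i) ha' hη' (by linarith) hXA hXB) hg0.le
    rw [add_div, mul_div_assoc, mul_div_assoc, mul_div_assoc] at h1
    have h2 : π * b < π * (countIcc (F i) A B / logGenus (F i)) := by linarith
    exact lt_of_mul_lt_mul_left h2 hπ.le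
  · have hb' : J A B < π * b := by
      rw [hJ]
      rwa [gt_iff_lt, inv_mul_eq_div, div_lt_iff₀ hπ, mul_comm] at hb
    obtain ⟨η, hη, hη0⟩ :=
      (((hJc (-1)).eventually (eventually_lt_nhds hb')).and eventually_mem_nhdsWithin).exists
    have hη' : 0 < η := hη0
    simp only [neg_one_mul, ← sub_eq_add_neg, sub_neg_eq_add] at hη
    have hat : Tendsto (fun a : ℝ => 2 * Real.arctan (η / a)) (𝓝[>] 0) (𝓝 π) := by
      have h1 : Tendsto (fun a : ℝ => η / a) (𝓝[>] 0) atTop := by
        simpa only [div_eq_mul_inv] using tendsto_inv_nhdsGT_zero.const_mul_atTop hη'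
      have h2 := ((Real.tendsto_arctan_atTop.mono_right nhdsWithin_le_nhds).comp h1).const_mul 2
      rwa [show (2 : ℝ) * (π / 2) = π by ring] at h2
    have hI := tendsto_limRe_integral h hRH hg (A - η) (B + η)
    obtain ⟨a, ha, haR, ha0⟩ := (((hI.sub (hat.mul_const b)).eventually
      (eventually_lt_nhds (show (∫ x in (A - η)..(B + η), zeroDensity φ φR φC x) - π * b < 0 by
        rw [hJ] at hη; linarith))).and ((hat.eventually (eventually_gt_nhds hπ)).and
          eventually_mem_nhdsWithin)).exists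
    have ha' : 0 < a := ha0
    filter_upwards [(tendsto_integral_fieldLog h hRH hg ha' (A - η) (B + η)).eventually
      (eventually_lt_nhds (sub_neg.1 ha)), hg.eventually_gt_atTop 0] with i hi hg0
    have h1 := (div_le_div_of_nonneg_right
      (arctan_mul_count_le (F i) (hRH i) ha' hη' hAB) hg0.le).trans_lt hi
    rw [mul_div_assoc] at h1
    exact lt_of_mul_lt_mul_left h1 haR.le

end FA.FamilyZeroDensity

end
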