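import Fermat.Agent.GRHBasicInequality.Consequences
import Fermat.Agent.FamilyZeroDensity.Field

/-!
# The limit of `re ξ'/ξ / g` right of the critical line

`limRe s = 1 - ∑ φ q re (log q / (q ^ s - 1)) - φR rR s - φC rC s`. It is the limit for `re s > 1`
by dominated convergence, hence by finite differences for `re s > 1/2` on the Riemann hypothesis,
and it is continuous up to the critical line by the basic inequality.
-/

set_option autoImplicit false
set_option linter.style.haveILetI false

noncomputable section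

universe u

open NumberField InfinitePlace Module Filter Topology Set
open FA.TsfasmanVladut FA.EulerKroneckerFamilies FA.GRHBasicInequality
open FA.DedekindHadamard (RHFor)
open scoped Real Classical

namespace FA.FamilyZeroDensity

/-- The limit function. -/
def limRe (φ : ℕ → ℝ) (φR φC : ℝ) (s : ℂ) : ℝ :=
  1 - (∑' q : ℕ, φ q * weightRe s q) - (φR * realRateAt s + φC * complexRateAt s)

variable {F : ℕ → Type u} [∀ i, Field (F i)] [∀ i, NumberField (F i)]
variable {φ : ℕ → ℝ} {φR φC : ℝ}

theorem tendsto_degree_ratio (h : RatiosTend F φ φR φC) :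
    Tendsto (fun i => (finrank ℚ (F i) : ℝ) / logGenus (F i)) atTop (𝓝 (φR + 2 * φC)) :=
  (h.real.add (h.complex.const_mul 2)).congr fun i => by
    rw [← degree_split (F i), add_div, mul_div_assoc]

theorem summable_phi_weight (h : RatiosTend F φ φR φC) (hRH : ∀ i, RHFor (F i))
    (hg : Tendsto (fun i => logGenus (F i)) atTop atTop) {σ : ℝ} (hσ : 1 / 2 ≤ σ) :
    Summable fun q => φ q * placeWeight σ q :=
  (basic_inequality_half h hRH hg).1.of_nonneg_of_le
    (fun q => mul_nonneg (h.nonneg q) (placeWeight_nonneg (by linarith) q))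
    fun q => mul_le_mul_of_nonneg_left (placeWeight_anti (by norm_num) hσ q) (h.nonneg q)

theorem abs_phi_weight_le (h : RatiosTend F φ φR φC) {s : ℂ} (hs : 1 / 2 ≤ s.re) (q : ℕ) :
    ‖φ q * weightRe s q‖ ≤ φ q * placeWeight (1 / 2) q := by
  rw [norm_mul, Real.norm_of_nonneg (h.nonneg q), Real.norm_eq_abs]
  exact mul_le_mul_of_nonneg_left ((abs_weightRe_le (by linarith) q).trans
    (placeWeight_anti (by norm_num) hs q)) (h.nonneg q)

/-- **The limit for `re s > 1`.** -/
theorem tendsto_fieldLog_right (h : RatiosTend F φ φR φC)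
    (hg : Tendsto (fun i => logGenus (F i)) atTop atTop) {s : ℂ} (hs : 1 < s.re) :
    Tendsto (fun i => fieldLog (F i) s / logGenus (F i)) atTop (𝓝 (limRe φ φR φC s)) := by
  have hd := (tendsto_degree_ratio h).eventually (eventually_le_nhds (lt_add_one (φR + 2 * φC)))
  have hsum : Tendsto (fun i => ∑' q : ℕ, (placeCount (F i) q : ℝ) / logGenus (F i) * weightRe s q)
      atTop (𝓝 (∑' q : ℕ, φ q * weightRe s q)) := by
    refine tendsto_tsum_of_dominated_convergence
      ((summable_placeWeight hs).mul_left (φR + 2 * φC + 1))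
      (fun q => (h.finite q).mul_const _) ?_
    filter_upwards [hd, hg.eventually_gt_atTop 0] with i hi hg0 q
    have hq : 0 ≤ (placeCount (F i) q : ℝ) / logGenus (F i) := by positivity
    rw [norm_mul, Real.norm_of_nonneg hq, Real.norm_eq_abs]
    exact mul_le_mul
      ((div_le_div_of_nonneg_right (Nat.cast_le.2 (placeCount_le (F i) q)) hg0.le).trans hi)
      (abs_weightRe_le (by linarith) q) (abs_nonneg _) (hq.trans
        ((div_le_div_of_nonneg_right (Nat.cast_le.2 (placeCount_le (F i) q)) hg0.le).trans hi))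
  have hinv : Tendsto (fun i => ((s⁻¹).re + ((s - 1)⁻¹).re) * (logGenus (F i))⁻¹) atTop (𝓝 0) := by
    simpa using (tendsto_inv_atTop_zero.comp hg).const_mul ((s⁻¹).re + ((s - 1)⁻¹).re)
  have hall := ((hinv.const_add 1).sub hsum).sub
    ((h.real.mul_const (realRateAt s)).add (h.complex.mul_const (complexRateAt s)))
  rw [add_zero] at hall
  rw [limRe]
  refine hall.congr' ?_
  filter_upwards [hg.eventually_gt_atTop 0] with i hg0
  rw [fieldLog_formula (F i) hs]
  simp only [div_mul_eq_mul_div]
  rw [tsum_div_const]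
  field_simp
  ring

/-- **The differences of the limit tend to `0`.** -/
theorem tendsto_altSum_limRe (h : RatiosTend F φ φR φC) (hRH : ∀ i, RHFor (F i))
    (hg : Tendsto (fun i => logGenus (F i)) atTop atTop) {s : ℂ} (hs : 1 / 2 < s.re) :
    Tendsto (fun k => altSum (k + 1) fun j : ℕ => limRe φ φR φC (s + j)) atTop (𝓝 0) := by
  have hs0 : 0 < s.re := by linarith
  have hsj : ∀ j : ℕ, 1 / 2 ≤ (s + j).re := fun j => by
    rw [Complex.add_re, Complex.natCast_re]
    linarith [(Nat.cast_nonneg j : (0 : ℝ) ≤ j)]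
  have hswap : ∀ n : ℕ, (altSum n fun j : ℕ => ∑' q : ℕ, φ q * weightRe (s + j) q) =
      ∑' q : ℕ, φ q * altSum n fun j : ℕ => weightRe (s + j) q := fun n => by
    refine (HasSum.tsum_eq ?_).symm
    refine HasSum.congr_fun (hasSum_sum fun j _ => (((basic_inequality_half h hRH hg).1
      |>.of_norm_bounded (f := fun q => φ q * weightRe (s + j) q)
        fun q => abs_phi_weight_le h (hsj j) q).hasSum).mul_left _) fun q => ?_
    simp only [altSum, Finset.mul_sum]
    exact Finset.sum_congr rfl fun j _ => by ring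
  have hP : Tendsto (fun k => ∑' q : ℕ, φ q * altSum (k + 1) fun j : ℕ => weightRe (s + j) q) atTop
      (𝓝 (∑' _ : ℕ, (0 : ℝ))) := by
    refine tendsto_tsum_of_dominated_convergence (basic_inequality_half h hRH hg).1 (fun q => ?_)
      (Eventually.of_forall fun k q => ?_)
    · have := ((tendsto_altSum_weightRe hs0 q).comp (tendsto_add_atTop_nat 1)).const_mul (φ q)
      rw [mul_zero] at this
      exact this
    · rw [norm_mul, Real.norm_of_nonneg (h.nonneg q), Real.norm_eq_abs]
      exact mul_le_mul_of_nonneg_left ((abs_altSum_weightRe_le hs0 _ q).trans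
        (placeWeight_anti (by norm_num) hs.le q)) (h.nonneg q)
  rw [tsum_zero] at hP
  have hfd := tendsto_fdRatio hs0
  have hR : Tendsto (fun k => altSum (k + 1) fun j : ℕ => realRateAt (s + j)) atTop (𝓝 0) :=
    squeeze_zero_norm (fun k => (abs_altSum_rateAt_le k hs0).1) hfd
  have hC : Tendsto (fun k => altSum (k + 1) fun j : ℕ => complexRateAt (s + j)) atTop (𝓝 0) :=
    squeeze_zero_norm (fun k => (abs_altSum_rateAt_le k hs0).2) hfd
  have hall := hP.neg.sub ((hR.const_mul φR).add (hC.const_mul φC))
  simp only [mul_zero, neg_zero, add_zero, sub_zero] at hall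
  refine hall.congr fun k => ?_
  simp only [limRe]
  rw [altSum_sub, altSum_sub, altSum_const (Nat.succ_pos k), hswap, altSum_add, altSum_mul_left,
    altSum_mul_left, zero_sub]

/-- **The limit for `re s > 1/2`.** -/
theorem tendsto_fieldLog (h : RatiosTend F φ φR φC) (hRH : ∀ i, RHFor (F i))
    (hg : Tendsto (fun i => logGenus (F i)) atTop atTop) {σ : ℝ} (hσ : 1 / 2 < σ) (x : ℝ) :
    Tendsto (fun i => fieldLog (F i) (pt σ x) / logGenus (F i)) atTop
      (𝓝 (limRe φ φR φC (pt σ x))) := by
  rcases lt_or_ge 1 σ with hσ1 | hσ1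
  · exact tendsto_fieldLog_right h hg (by rwa [pt_re])
  obtain ⟨W, hW⟩ : ∃ W, W = |limRe φ φR φC (pt 2 x)| + 1 := ⟨_, rfl⟩
  have h2 := (tendsto_fieldLog_right h hg (show 1 < (pt 2 x).re by simp)).eventually
    (eventually_le_nhds (show limRe φ φR φC (pt 2 x) < W by
      linarith [le_abs_self (limRe φ φR φC (pt 2 x))]))
  refine Metric.tendsto_nhds.2 fun ε hε => ?_
  have hfd : Tendsto (fun k => 4 * fdRatio (σ - 1 / 2) (k + 1) * W) atTop (𝓝 0) := by
    simpa using (((tendsto_fdRatio (sub_pos.2 hσ)).comp (tendsto_add_atTop_nat 1)).const_mul 4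
      |>.mul_const W)
  have hlim := tendsto_altSum_limRe h hRH hg (s := pt σ x) (by rwa [pt_re])
  obtain ⟨k, hk1, hk2⟩ := ((hfd.eventually (eventually_lt_nhds (show (0 : ℝ) < ε / 3 by
    linarith))).and (Metric.tendsto_nhds.1 hlim (ε / 3) (by linarith))).exists
  simp only [pt_add_natCast, Real.dist_eq, sub_zero] at hk2
  have hfix : Tendsto (fun i => (altSum (k + 1) fun j : ℕ =>
      if j = 0 then 0 else fieldLog (F i) (pt (σ + j) x) / logGenus (F i))) atTop
      (𝓝 (altSum (k + 1) fun j : ℕ => if j = 0 then 0 else limRe φ φR φC (pt (σ + j) x))) := by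
    refine tendsto_finsetSum _ fun j _ => Tendsto.const_mul _ ?_
    dsimp only
    split_ifs with hj
    · exact tendsto_const_nhds
    · have : (1 : ℝ) ≤ j := Nat.one_le_cast.2 (Nat.pos_of_ne_zero hj)
      exact tendsto_fieldLog_right h hg (by rw [pt_re]; linarith)
  filter_upwards [Metric.tendsto_nhds.1 hfix (ε / 3) (by linarith), h2,
    hg.eventually_gt_atTop 0] with i hi hi2 hg0
  rw [Real.dist_eq] at hi ⊢
  rw [altSum_ite, altSum_ite, Nat.cast_zero, add_zero] at hi
  have e : (altSum (k + 1) fun j : ℕ => fieldLog (F i) (pt (σ + j) x) / logGenus (F i)) =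
      (altSum (k + 1) fun j : ℕ => fieldLog (F i) (pt (σ + j) x)) / logGenus (F i) := by
    simp only [altSum, Finset.sum_div, mul_div_assoc]
  have hb := abs_altSum_fieldLog_le (F i) (hRH i) hσ hσ1 x k
  have hb' : |(altSum (k + 1) fun j : ℕ => fieldLog (F i) (pt (σ + j) x) / logGenus (F i))| <
      ε / 3 := by
    rw [e, abs_div, abs_of_pos hg0]
    refine lt_of_le_of_lt ((div_le_div_of_nonneg_right hb hg0.le).trans ?_) hk1
    rw [mul_div_assoc]
    exact mul_le_mul_of_nonneg_left hi2
      (mul_nonneg (by norm_num) (fdRatio_pos (sub_pos.2 hσ) _).le)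
  rw [abs_lt] at hi hb' hk2 ⊢
  constructor <;> linarith

theorem continuousAt_digamma_re_pos {z : ℂ} (hz : 0 < z.re) :
    ContinuousAt Complex.digamma z := by
  have hU : IsOpen {w : ℂ | 0 < w.re} := isOpen_lt continuous_const Complex.continuous_re
  have hD : DifferentiableOn ℂ Complex.Gamma {w : ℂ | 0 < w.re} := fun w hw =>
    (Complex.differentiableAt_Gamma w fun m h => by
      have := congrArg Complex.re h
      simp at this
      linarith [(Nat.cast_nonneg m : (0 : ℝ) ≤ m), show 0 < w.re from hw]).differentiableWithinAt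
  have hA := hD.analyticAt (hU.mem_nhds hz)
  exact hA.deriv.continuousAt.div hA.continuousAt (Complex.Gamma_ne_zero_of_re_pos hz)

theorem continuousOn_weightRe (q : ℕ) :
    ContinuousOn (fun s => weightRe s q) {s : ℂ | 1 / 2 ≤ s.re} := by
  rcases Nat.lt_or_ge q 2 with hq | hq
  · simp only [weightRe_small hq]
    exact continuousOn_const
  intro s hs
  have hs' : 1 / 2 ≤ s.re := hs
  refine (Complex.continuous_re.continuousAt.comp (continuousAt_const.div
    ((continuousAt_const_cpow (Nat.cast_ne_zero.2 (by omega))).sub continuousAt_const)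
    (natCast_cpow_sub_ne (by linarith) hq))).continuousWithinAt

/-- **Continuity up to the critical line.** -/
theorem continuousOn_limRe (h : RatiosTend F φ φR φC) (hRH : ∀ i, RHFor (F i))
    (hg : Tendsto (fun i => logGenus (F i)) atTop atTop) :
    ContinuousOn (limRe φ φR φC) {s : ℂ | 1 / 2 ≤ s.re} := by
  have hR : ContinuousOn realRateAt {s : ℂ | 1 / 2 ≤ s.re} := fun s hs => by
    have hs' : 1 / 2 ≤ s.re := hs
    exact ((continuousAt_const.sub (Complex.continuous_re.continuousAt.comp
      (ContinuousAt.comp' (g := Complex.digamma)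
        (continuousAt_digamma_re_pos (by rw [Complex.div_ofNat_re]; linarith))
        (f := fun w : ℂ => w / 2) (by fun_prop)))).div_const 2).continuousWithinAt
  have hC : ContinuousOn complexRateAt {s : ℂ | 1 / 2 ≤ s.re} := fun s hs => by
    have hs' : 1 / 2 ≤ s.re := hs
    exact (continuousAt_const.sub (Complex.continuous_re.continuousAt.comp
      (continuousAt_digamma_re_pos (by linarith)))).continuousWithinAt
  exact (continuousOn_const.sub (continuousOn_tsum
    (fun q => continuousOn_const.mul (continuousOn_weightRe q)) (basic_inequality_half h hRH hg).1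
      fun q s hs => abs_phi_weight_le h hs q)).sub
        ((continuousOn_const.mul hR).add (continuousOn_const.mul hC))

end FA.FamilyZeroDensity

end
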