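import Fermat.Agent.FamilyZeroDensity.Integral

/-!
# Every interval holds an ordinate eventually

The density is nonnegative and positive off `t = 0`: `re ψ` is strictly least on the real axis, and
without infinite places the density is `1`. So in every family with `|d| → ∞` each interval holds
`≫ g` ordinates, and a single point carries `o (g)`.
-/

set_option autoImplicit false
set_option linter.style.haveILetI false

noncomputable section

universe u

open NumberField InfinitePlace Module Filter Topology Set MeasureTheory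
open FA.TsfasmanVladut FA.GRHBasicInequality
open FA.DedekindHadamard (RHFor)
open scoped Real Classical

namespace FA.FamilyZeroDensity

variable {F : ℕ → Type u} [∀ i, Field (F i)] [∀ i, NumberField (F i)]
variable {φ : ℕ → ℝ} {φR φC : ℝ}

theorem zeroDensity_nonneg (h : RatiosTend F φ φR φC) (hRH : ∀ i, RHFor (F i))
    (hg : Tendsto (fun i => logGenus (F i)) atTop atTop) (t : ℝ) :
    0 ≤ zeroDensity φ φR φC t := by
  have hc : Continuous fun a : ℝ => limRe φ φR φC (pt (1 / 2 + max a 0) t) :=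
    (continuousOn_limRe h hRH hg).comp_continuous (f := fun a : ℝ => pt (1 / 2 + max a 0) t)
      (by unfold pt; fun_prop) fun a => by
        show 1 / 2 ≤ (pt _ _).re
        rw [pt_re]
        linarith [le_max_right a (0 : ℝ)]
  have h0 := (hc.tendsto 0).mono_left (nhdsWithin_le_nhds (s := Ioi 0))
  simp only [max_self, add_zero] at h0
  refine ge_of_tendsto h0 ?_
  filter_upwards [self_mem_nhdsWithin] with a ha
  have ha' : 0 < a := ha
  rw [max_eq_left ha'.le]
  exact ge_of_tendsto' (tendsto_fieldLog h hRH hg (by linarith) t) fun i =>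
    div_nonneg (fieldLog_nonneg (F i) (hRH i) (by linarith) t) (logGenus_nonneg _)

theorem ratios_nonneg (h : RatiosTend F φ φR φC) : 0 ≤ φR ∧ 0 ≤ φC :=
  ⟨ge_of_tendsto' h.real fun _ => div_nonneg (Nat.cast_nonneg _) (logGenus_nonneg _),
    ge_of_tendsto' h.complex fun _ => div_nonneg (Nat.cast_nonneg _) (logGenus_nonneg _)⟩

theorem phi_eq_zero (h : RatiosTend F φ φR φC) (hR : φR = 0) (hC : φC = 0) (q : ℕ) : φ q = 0 := by
  refine le_antisymm ?_ (h.nonneg q)
  refine le_of_le_of_eq (le_of_tendsto_of_tendsto' (h.finite q) (tendsto_degree_ratio h) fun i =>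
    div_le_div_of_nonneg_right (Nat.cast_le.2 (placeCount_le (F i) q)) (logGenus_nonneg _)) ?_
  rw [hR, hC]
  ring

theorem rateAt_lt {t : ℝ} (ht : t ≠ 0) :
    realRateAt (pt (1 / 2) t) < realRate (1 / 2) ∧
      complexRateAt (pt (1 / 2) t) < complexRate (1 / 2) := by
  have h1 := re_digamma_lt (show (0 : ℝ) < 1 / 4 by norm_num)
    (div_ne_zero ht (two_ne_zero (α := ℝ)))
  have h2 := re_digamma_lt (show (0 : ℝ) < 1 / 2 by norm_num) ht
  constructor
  · rw [realRateAt, realRate, show pt (1 / 2) t / 2 =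
      ((1 / 4 : ℝ) : ℂ) + (t / 2 : ℝ) * Complex.I by simp only [pt]; push_cast; ring,
      show ((1 / 2 : ℝ) : ℂ) / 2 = ((1 / 4 : ℝ) : ℂ) by push_cast; norm_num]
    linarith
  · rw [complexRateAt, complexRate, show pt (1 / 2) t = ((1 / 2 : ℝ) : ℂ) + t * Complex.I from rfl]
    linarith

/-- **The density is positive off `0`.** -/
theorem zeroDensity_pos (h : RatiosTend F φ φR φC) (hRH : ∀ i, RHFor (F i))
    (hg : Tendsto (fun i => logGenus (F i)) atTop atTop) {t : ℝ} (ht : t ≠ 0) :
    0 < zeroDensity φ φR φC t := by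
  obtain ⟨hR0, hC0⟩ := ratios_nonneg h
  by_cases hz : φR = 0 ∧ φC = 0
  · simp [zeroDensity, limRe, phi_eq_zero h hz.1 hz.2, hz.1, hz.2]
  have hb := basic_inequality_half h hRH hg
  have hp : ∑' q : ℕ, φ q * weightRe (pt (1 / 2) t) q ≤ ∑' q : ℕ, φ q * placeWeight (1 / 2) q :=
    (hb.1.of_norm_bounded fun q => abs_phi_weight_le h (by rw [pt_re]) q).tsum_le_tsum
      (fun q => (le_abs_self _).trans (abs_phi_weight_le h (by rw [pt_re]) q)) hb.1
  obtain ⟨h1, h2⟩ := rateAt_lt ht
  rw [zeroDensity, limRe]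
  rcases lt_or_eq_of_le hR0 with hR | hR
  · linarith [mul_lt_mul_of_pos_left h1 hR, mul_le_mul_of_nonneg_left h2.le hC0, hb.2]
  · have hC : 0 < φC := lt_of_le_of_ne hC0 fun he => hz ⟨hR.symm, he.symm⟩
    linarith [mul_le_mul_of_nonneg_left h1.le hR0, mul_lt_mul_of_pos_left h2 hC, hb.2]

theorem integral_zeroDensity_pos (h : RatiosTend F φ φR φC) (hRH : ∀ i, RHFor (F i))
    (hg : Tendsto (fun i => logGenus (F i)) atTop atTop) {A B : ℝ} (hAB : A < B) :
    0 < ∫ x in A..B, zeroDensity φ φR φC x := by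
  obtain ⟨c, hc, hc0⟩ : ∃ c ∈ Icc A B, c ≠ 0 := by
    rcases eq_or_ne A 0 with hA | hA
    · exact ⟨B, ⟨hAB.le, le_rfl⟩, by linarith⟩
    · exact ⟨A, ⟨le_rfl, hAB.le⟩, hA⟩
  exact intervalIntegral.integral_pos hAB (continuous_zeroDensity h hRH hg).continuousOn
    (fun x _ => zeroDensity_nonneg h hRH hg x) ⟨c, hc, zeroDensity_pos h hRH hg hc0⟩

variable (F)

/-- **No family avoids an interval.** -/
theorem eventually_countIcc_pos (hRH : ∀ i, RHFor (F i))
    (hg : Tendsto (fun i => logGenus (F i)) atTop atTop) {A B : ℝ} (hAB : A < B) :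
    ∀ᶠ i in atTop, 0 < countIcc (F i) A B := by
  by_contra hne
  rw [not_eventually] at hne
  obtain ⟨θ, hθ, hθ0⟩ := extraction_of_frequently_atTop hne
  obtain ⟨ψ, φ, φR, φC, hψ, hφ⟩ :=
    exists_subseq_ratios (F := fun i => F (θ i)) (hg.comp hθ.tendsto_atTop)
  have hg' : Tendsto (fun i => logGenus (F (θ (ψ i)))) atTop atTop :=
    (hg.comp hθ.tendsto_atTop).comp hψ.tendsto_atTop
  have hlim := tendsto_countIcc hφ (fun i => hRH (θ (ψ i))) hg' hAB.le
  have hpos := mul_pos (inv_pos.2 Real.pi_pos)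
    (integral_zeroDensity_pos hφ (fun i => hRH (θ (ψ i))) hg' hAB)
  obtain ⟨i, hi, hg0⟩ :=
    ((hlim.eventually (eventually_gt_nhds hpos)).and (hg'.eventually_gt_atTop 0)).exists
  exact hθ0 (ψ i) ((div_pos_iff_of_pos_right hg0).1 hi)

/-- **A point carries `o (g)`.** -/
theorem tendsto_countIcc_point (hRH : ∀ i, RHFor (F i))
    (hg : Tendsto (fun i => logGenus (F i)) atTop atTop) (t : ℝ) :
    Tendsto (fun i => countIcc (F i) t t / logGenus (F i)) atTop (𝓝 0) := by
  refine tendsto_of_subseq_tendsto fun ns hns => ?_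
  obtain ⟨ψ, φ, φR, φC, hψ, hφ⟩ := exists_subseq_ratios (F := fun i => F (ns i)) (hg.comp hns)
  refine ⟨ψ, ?_⟩
  have h := tendsto_countIcc hφ (fun i => hRH (ns (ψ i)))
    ((hg.comp hns).comp hψ.tendsto_atTop) (le_refl t)
  rwa [intervalIntegral.integral_same, mul_zero] at h

end FA.FamilyZeroDensity

end
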